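/-
Package L1 (level-one facts about the modular invariant `j`), owner helper5.
Everything lives in `Fermat.Agent.X0L1`.

Conventions: `jFun = E₄³/Δ` (so `j = q⁻¹ + 744 + …`), `Δ = ModularForm.discriminant`,
the two elliptic points are Mathlib's `UpperHalfPlane.I` and `UpperHalfPlane.ρ`
(stabilizers: Mathlib's `ModularGroup.stabilizer_I`, `ModularGroup.stabilizer_ρ`).
-/
import Mathlib

set_option autoImplicit false

open UpperHalfPlane ModularForm MatrixGroups

namespace Fermat.Agent.X0L1

/-- The modular invariant `j = E₄³/Δ`, as a function on the upper half plane. -/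
noncomputable def jFun (z : ℍ) : ℂ := E₄ z ^ 3 / ModularForm.discriminant z

theorem jFun_def (z : ℍ) : jFun z = E₄ z ^ 3 / ModularForm.discriminant z := rfl

end Fermat.Agent.X0L1
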