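/-
Package L1, file `Basic`: elementary properties of `jFun` (L1.1).
-/
import Fermat.Agent.X0L1.Defs

set_option autoImplicit false

open UpperHalfPlane ModularForm MatrixGroups Filter
open scoped Topology Manifold

namespace Fermat.Agent.X0L1.Basic

/-- Level-one modular forms are invariant under all of `SL(2,ℤ)`. -/
theorem slash_levelOne {k : ℤ} (h : ModularForm 𝒮ℒ k) (γ : SL(2, ℤ)) : (⇑h) ∣[k] γ = ⇑h := by
  rw [ModularForm.SL_slash]
  exact SlashInvariantFormClass.slash_action_eq h (Matrix.SpecialLinearGroup.mapGL ℝ γ) ⟨γ, rfl⟩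

/-- Level-one cusp forms are invariant under all of `SL(2,ℤ)`. -/
theorem slash_cusp_levelOne {k : ℤ} (h : CuspForm 𝒮ℒ k) (γ : SL(2, ℤ)) : (⇑h) ∣[k] γ = ⇑h := by
  rw [ModularForm.SL_slash]
  exact SlashInvariantFormClass.slash_action_eq h (Matrix.SpecialLinearGroup.mapGL ℝ γ) ⟨γ, rfl⟩

/-- Pointwise form of a slash-invariance (natural number weight). -/
theorem smul_of_slash {k : ℕ} {F : ℍ → ℂ} {γ : SL(2, ℤ)} (h : F ∣[(k : ℤ)] γ = F) (z : ℍ) :
    F (γ • z) = denom γ z ^ k * F z := by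
  have h1 := congrFun h z
  rw [ModularForm.SL_slash_apply] at h1
  have hd : denom γ z ≠ 0 := denom_ne_zero γ z
  rw [← h1, zpow_neg, zpow_natCast]
  field_simp

/-- A level-one modular form tends to its constant `q`-expansion coefficient at `i∞`. -/
theorem tendsto_levelOne {k : ℤ} (f : ModularForm 𝒮ℒ k) :
    Tendsto (fun z : ℍ => f z) atImInfty (𝓝 ((qExpansion 1 f).coeff 0)) := by
  have h1 : AnalyticAt ℂ (cuspFunction 1 f) 0 :=
    ModularFormClass.analyticAt_cuspFunction_zero f one_pos one_mem_strictPeriods_SL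
  have h2 := h1.continuousAt.tendsto.comp (UpperHalfPlane.qParam_tendsto_atImInfty one_pos)
  have h3 : (qExpansion 1 f).coeff 0 = cuspFunction 1 f 0 := by
    simp [qExpansion_coeff]
  rw [h3]
  refine h2.congr fun z => ?_
  exact SlashInvariantFormClass.eq_cuspFunction f z one_mem_strictPeriods_SL one_ne_zero

end Fermat.Agent.X0L1.Basic

namespace Fermat.Agent.X0L1

local notation "Δ" => ModularForm.discriminant

/-- transformation law of `E₄` under `SL(2,ℤ)`, pointwise -/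
theorem E₄_smul (γ : SL(2, ℤ)) (z : ℍ) : E₄ (γ • z) = denom γ z ^ 4 * E₄ z := by
  exact Basic.smul_of_slash (k := 4) (Basic.slash_levelOne E₄ γ) z

/-- transformation law of `E₆` under `SL(2,ℤ)`, pointwise -/
theorem E₆_smul (γ : SL(2, ℤ)) (z : ℍ) : E₆ (γ • z) = denom γ z ^ 6 * E₆ z := by
  exact Basic.smul_of_slash (k := 6) (Basic.slash_levelOne E₆ γ) z

/-- transformation law of `Δ` under `SL(2,ℤ)`, pointwise -/
theorem discriminant_smul (γ : SL(2, ℤ)) (z : ℍ) : Δ (γ • z) = denom γ z ^ 12 * Δ z := by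
  exact Basic.smul_of_slash (k := 12) (Basic.slash_cusp_levelOne CuspForm.discriminant γ) z

theorem jFun_mul_discriminant (z : ℍ) : jFun z * Δ z = E₄ z ^ 3 := by
  rw [jFun_def, div_mul_cancel₀ _ (ModularForm.discriminant_ne_zero z)]

theorem jFun_sub_mul_discriminant (z : ℍ) : (jFun z - 1728) * Δ z = E₆ z ^ 2 := by
  rw [sub_mul, jFun_mul_discriminant, ModularForm.discriminant_eq_E₄_cube_sub_E₆_sq]
  ring

theorem jFun_eq_zero_iff (z : ℍ) : jFun z = 0 ↔ E₄ z = 0 := by
  rw [jFun_def, div_eq_zero_iff]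
  simp [ModularForm.discriminant_ne_zero z]

theorem jFun_eq_1728_iff (z : ℍ) : jFun z = 1728 ↔ E₆ z = 0 := by
  have h := jFun_sub_mul_discriminant z
  have hΔ := ModularForm.discriminant_ne_zero z
  constructor
  · intro hj
    rw [hj, sub_self, zero_mul] at h
    exact (pow_eq_zero_iff two_ne_zero).mp h.symm
  · intro hE
    rw [hE, zero_pow two_ne_zero, mul_eq_zero] at h
    rcases h with h | h
    · exact sub_eq_zero.mp h
    · exact absurd h hΔ

/-- `E₄` and `E₆` have no common zero. -/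
theorem E₄_ne_zero_or_E₆_ne_zero (z : ℍ) : E₄ z ≠ 0 ∨ E₆ z ≠ 0 := by
  by_contra h
  rw [not_or, not_not, not_not] at h
  have h1 := ModularForm.discriminant_eq_E₄_cube_sub_E₆_sq z
  rw [h.1, h.2] at h1
  exact ModularForm.discriminant_ne_zero z (by simpa using h1)

theorem mdifferentiable_jFun : MDiff jFun := by
  have h : MDiff (fun z : ℍ => E₄ z ^ 3 / Δ z) :=
    (E₄.holo'.pow 3).div CuspForm.discriminant.holo' ModularForm.discriminant_ne_zero
  exact h

/-- `j` is `SL(2,ℤ)`-invariant. -/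
theorem jFun_smul (γ : SL(2, ℤ)) (z : ℍ) : jFun (γ • z) = jFun z := by
  rw [jFun_def, jFun_def, E₄_smul, discriminant_smul]
  have hd : denom γ z ≠ 0 := denom_ne_zero γ z
  have hΔ := ModularForm.discriminant_ne_zero z
  field_simp

/-- `E₄ → 1` at `i∞`. -/
theorem tendsto_E₄_atImInfty : Tendsto (fun z : ℍ => E₄ z) atImInfty (𝓝 1) := by
  have h := Basic.tendsto_levelOne E₄
  rwa [EisensteinSeries.E_qExpansion_coeff_zero _ ⟨2, rfl⟩] at h

/-- `E₆ → 1` at `i∞`. -/
theorem tendsto_E₆_atImInfty : Tendsto (fun z : ℍ => E₆ z) atImInfty (𝓝 1) := by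
  have h := Basic.tendsto_levelOne E₆
  rwa [EisensteinSeries.E_qExpansion_coeff_zero _ ⟨3, rfl⟩] at h

/-- `Δ/q → 1` at `i∞`. -/
theorem tendsto_discriminant_div_qParam :
    Tendsto (fun z : ℍ => Δ z / Function.Periodic.qParam 1 z) atImInfty (𝓝 1) := by
  refine ModularForm.tendsto_atImInfty_tprod_one_sub_eta_q_pow.congr fun z => ?_
  have hq : Function.Periodic.qParam 1 (z : ℂ) ≠ 0 := Function.Periodic.qParam_ne_zero _
  rw [ModularForm.discriminant_eq_q_prod, mul_div_cancel_left₀ _ hq]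

/-- `j · q → 1` at `i∞`. -/
theorem tendsto_jFun_mul_qParam :
    Tendsto (fun z : ℍ => jFun z * Function.Periodic.qParam 1 z) atImInfty (𝓝 1) := by
  have h1 : Tendsto (fun z : ℍ => E₄ z ^ 3 / (Δ z / Function.Periodic.qParam 1 z)) atImInfty
      (𝓝 (1 ^ 3 / 1)) :=
    (tendsto_E₄_atImInfty.pow 3).div tendsto_discriminant_div_qParam one_ne_zero
  rw [one_pow, div_one] at h1
  refine h1.congr fun z => ?_
  have hq : Function.Periodic.qParam 1 (z : ℂ) ≠ 0 := Function.Periodic.qParam_ne_zero _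
  have hΔ := ModularForm.discriminant_ne_zero z
  rw [jFun_def]
  field_simp

namespace Basic

/-- The auxiliary weight `12` function `E₄³ - c Δ`, whose zeros are the solutions of
`jFun z = c`. -/
noncomputable def gFun (c : ℂ) (z : ℍ) : ℂ := E₄ z ^ 3 - c * Δ z

theorem gFun_smul (c : ℂ) (γ : SL(2, ℤ)) (z : ℍ) :
    gFun c (γ • z) = denom γ z ^ 12 * gFun c z := by
  rw [gFun, gFun, E₄_smul, discriminant_smul]
  ring

theorem mdifferentiable_gFun (c : ℂ) : MDiff (gFun c) := by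
  have h : MDiff (fun z : ℍ => E₄ z ^ 3 - c * Δ z) :=
    (E₄.holo'.pow 3).sub (mdifferentiable_const.mul CuspForm.discriminant.holo')
  exact h

theorem tendsto_gFun (c : ℂ) : Tendsto (gFun c) atImInfty (𝓝 1) := by
  have h0 : Tendsto (fun z : ℍ => Δ z) atImInfty (𝓝 0) :=
    ModularForm.discriminant_isZeroAtImInfty
  have h : Tendsto (fun z : ℍ => E₄ z ^ 3 - c * Δ z) atImInfty (𝓝 (1 ^ 3 - c * 0)) :=
    (tendsto_E₄_atImInfty.pow 3).sub (h0.const_mul c)
  rw [one_pow, mul_zero, sub_zero] at h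
  exact h

theorem inv_gFun_slash (c : ℂ) (γ : SL(2, ℤ)) :
    (fun z : ℍ => (gFun c z)⁻¹) ∣[(-12 : ℤ)] γ = fun z : ℍ => (gFun c z)⁻¹ := by
  funext z
  rw [ModularForm.SL_slash_apply, gFun_smul]
  have hd : denom γ z ≠ 0 := denom_ne_zero γ z
  rw [neg_neg, mul_inv]
  have h12 : (denom γ z) ^ (12 : ℤ) = denom γ z ^ (12 : ℕ) := by norm_cast
  rw [h12]
  field_simp

/-- If `E₄³ - c Δ` had no zero, its inverse would be a modular form of weight `-12`. -/
noncomputable def invForm (c : ℂ) (hc : ∀ z : ℍ, gFun c z ≠ 0) : ModularForm 𝒮ℒ (-12) where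
  toFun z := (gFun c z)⁻¹
  slash_action_eq' := fun _ ⟨γ, hγ⟩ ↦ hγ ▸ inv_gFun_slash c γ
  holo' := by
    have h : MDiff (fun z : ℍ => (1 : ℂ) / gFun c z) :=
      mdifferentiable_const.div (mdifferentiable_gFun c) hc
    simpa using h
  bdd_at_cusps' {c'} hc' := by
    rw [Subgroup.IsArithmetic.isCusp_iff_isCusp_SL2Z] at hc'
    rw [OnePoint.isBoundedAt_iff_forall_SL2Z hc']
    intro γ _
    rw [inv_gFun_slash c γ, IsBoundedAtImInfty, BoundedAtFilter]
    have h : Tendsto (fun z : ℍ => (gFun c z)⁻¹) atImInfty (𝓝 (1 : ℂ)⁻¹) :=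
      (tendsto_gFun c).inv₀ one_ne_zero
    exact h.isBigO_one ℝ

/-- `E₄³ - c Δ` has a zero: otherwise its inverse would be a nonzero modular form of negative
weight and level one. -/
theorem exists_gFun_eq_zero (c : ℂ) : ∃ z : ℍ, gFun c z = 0 := by
  by_contra h
  have hc : ∀ z : ℍ, gFun c z ≠ 0 := fun z hz => h ⟨z, hz⟩
  have h0 := ModularFormClass.levelOne_neg_weight_eq_zero (by norm_num : (-12 : ℤ) < 0)
    (invForm c hc)
  have h1 := congrFun h0 UpperHalfPlane.I
  have h2 : (gFun c UpperHalfPlane.I)⁻¹ = 0 := h1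
  exact hc _ (inv_eq_zero.mp h2)

end Basic

/-- `j` takes every complex value. -/
theorem jFun_surjective : ∀ c : ℂ, ∃ z : ℍ, jFun z = c := by
  intro c
  obtain ⟨z, hz⟩ := Basic.exists_gFun_eq_zero c
  refine ⟨z, ?_⟩
  have hΔ := ModularForm.discriminant_ne_zero z
  rw [jFun_def, div_eq_iff hΔ]
  exact sub_eq_zero.mp hz

end Fermat.Agent.X0L1
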