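/-
Package L1, file `Ramanujan` (L1.3): Ramanujan's identities and the derivative of `j`.
`D = (2πi)⁻¹ d/dz` is Mathlib's `Derivative.normalizedDerivOfComplex`.
-/
import Fermat.Agent.X0L1.Basic

set_option autoImplicit false

open UpperHalfPlane ModularForm MatrixGroups Filter
open scoped Topology Manifold

namespace Fermat.Agent.X0L1

open Derivative EisensteinSeries

local notation "Δ" => ModularForm.discriminant

namespace Ramanujan

/-- The derivative of `q = exp (2πi w)`. -/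
theorem hasDerivAt_qParam_one (w : ℂ) : HasDerivAt (Function.Periodic.qParam 1)
    (2 * Real.pi * Complex.I * Function.Periodic.qParam 1 w) w := by
  have h1 : HasDerivAt (fun x : ℂ => 2 * Real.pi * Complex.I * x / ((1 : ℝ) : ℂ))
      (2 * Real.pi * Complex.I) w := by
    have := ((hasDerivAt_id w).const_mul (2 * (Real.pi : ℂ) * Complex.I)).div_const ((1 : ℝ) : ℂ)
    simpa using this
  have h2 : HasDerivAt (Function.Periodic.qParam 1)
      (Complex.exp (2 * Real.pi * Complex.I * w / ((1 : ℝ) : ℂ)) * (2 * Real.pi * Complex.I)) w :=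
    h1.cexp
  have h4 : 2 * Real.pi * Complex.I * Function.Periodic.qParam 1 w =
      Complex.exp (2 * Real.pi * Complex.I * w / ((1 : ℝ) : ℂ)) * (2 * Real.pi * Complex.I) := by
    rw [Function.Periodic.qParam]
    ring
  rw [h4]
  exact h2

/-- `D F z = q * c'(q)` where `c` is the cusp function of the level-one form `F`. -/
theorem D_eq_qParam_mul_deriv_cuspFunction {k : ℤ} (F : ModularForm 𝒮ℒ k) (z : ℍ) :
    D (⇑F) z = Function.Periodic.qParam 1 (z : ℂ) *
      deriv (cuspFunction 1 (⇑F)) (Function.Periodic.qParam 1 (z : ℂ)) := by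
  have hq : ‖Function.Periodic.qParam 1 (z : ℂ)‖ < 1 :=
    Function.Periodic.norm_qParam_lt_one one_pos z.im_pos
  have hc : DifferentiableAt ℂ (cuspFunction 1 (⇑F)) (Function.Periodic.qParam 1 (z : ℂ)) :=
    ModularFormClass.differentiableAt_cuspFunction F one_pos one_mem_strictPeriods_SL hq
  have hqd := hasDerivAt_qParam_one (z : ℂ)
  have hev : (⇑F ∘ ofComplex) =ᶠ[𝓝 (z : ℂ)]
      (cuspFunction 1 (⇑F)) ∘ (Function.Periodic.qParam 1) := by
    filter_upwards [isOpen_upperHalfPlaneSet.mem_nhds z.im_pos] with w hw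
    have := SlashInvariantFormClass.eq_cuspFunction F ⟨w, hw⟩ one_mem_strictPeriods_SL one_ne_zero
    simp only [Function.comp_apply, ofComplex_apply_of_im_pos hw]
    exact this.symm
  have hd : HasDerivAt (⇑F ∘ ofComplex)
      (deriv (cuspFunction 1 (⇑F)) (Function.Periodic.qParam 1 (z : ℂ)) *
        (2 * Real.pi * Complex.I * Function.Periodic.qParam 1 (z : ℂ))) (z : ℂ) :=
    (hc.hasDerivAt.comp (z : ℂ) hqd).congr_of_eventuallyEq hev
  rw [normalizedDerivOfComplex, hd.deriv]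
  have : (2 * (Real.pi : ℂ) * Complex.I) ≠ 0 := Complex.two_pi_I_ne_zero
  field_simp

/-- `E₂` is `1`-periodic. -/
theorem E2_periodic : Function.Periodic (E2 ∘ ofComplex) ((1 : ℝ) : ℂ) := by
  intro w
  by_cases hw : 0 < w.im
  · have hw' : 0 < (w + ((1 : ℝ) : ℂ)).im := by simpa using hw
    simp only [Function.comp_apply, ofComplex_apply_of_im_pos hw', ofComplex_apply_of_im_pos hw]
    rw [E2_eq_tsum_cexp, E2_eq_tsum_cexp]
    have h1 : Complex.exp (2 * Real.pi * Complex.I * (w + ((1 : ℝ) : ℂ))) =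
        Complex.exp (2 * Real.pi * Complex.I * w) := by
      rw [mul_add, Complex.exp_add]
      simp
    simp only [h1]
  · have hw0 : w.im ≤ 0 := not_lt.mp hw
    have hw' : (w + ((1 : ℝ) : ℂ)).im ≤ 0 := by simpa using hw0
    show E2 (ofComplex (w + ((1 : ℝ) : ℂ))) = E2 (ofComplex w)
    rw [ofComplex_apply_of_im_nonpos hw', ofComplex_apply_of_im_nonpos hw0]

theorem analyticAt_cuspFunction_E2 : AnalyticAt ℂ (cuspFunction 1 E2) 0 :=
  UpperHalfPlane.analyticAt_cuspFunction_zero one_pos E2_periodic E2_mdifferentiable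
    isBoundedAtImInfty_E2

theorem cuspFunction_E2_zero : cuspFunction 1 E2 0 = 1 := by
  have hs : ∀ τ : ℍ, HasSum (fun m : ℕ ↦
      (if m = 0 then 1 else -24 * ArithmeticFunction.sigma 1 m : ℂ) •
        Function.Periodic.qParam 1 (τ : ℂ) ^ m) (E2 τ) := fun τ ↦ by
    simpa only [Function.Periodic.qParam, Complex.ofReal_one, div_one] using
      hasSum_qExpansion_E2 (z := τ)
  have hps :=
    UpperHalfPlane.hasFPowerSeriesOnBall_cuspFunction one_pos analyticAt_cuspFunction_E2 hs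
  have h0 := hps.coeff_zero (fun _ => (0 : ℂ))
  rw [← h0]
  simp [FormalMultilinearSeries.ofScalars]

/-- Level-one forms are invariant under the slash action of `SL(2,ℤ)`. -/
theorem slash_levelOne {k : ℤ} (F : ModularForm 𝒮ℒ k) (γ : SL(2, ℤ)) : (⇑F) ∣[k] γ = ⇑F := by
  rw [ModularForm.SL_slash]
  exact SlashInvariantFormClass.slash_action_eq F (Matrix.SpecialLinearGroup.mapGL ℝ γ) ⟨γ, rfl⟩

end Ramanujan

/-- For a level-one modular form `F`, `D F → 0` at `i∞`. -/
theorem isZeroAtImInfty_D {k : ℤ} (F : ModularForm 𝒮ℒ k) : IsZeroAtImInfty (D (⇑F)) := by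
  have han : AnalyticAt ℂ (cuspFunction 1 (⇑F)) 0 :=
    ModularFormClass.analyticAt_cuspFunction_zero F one_pos one_mem_strictPeriods_SL
  have hcont : ContinuousAt (deriv (cuspFunction 1 (⇑F))) 0 := han.deriv.continuousAt
  have hq : Tendsto (fun τ : ℍ => Function.Periodic.qParam 1 (τ : ℂ)) atImInfty (𝓝 0) :=
    UpperHalfPlane.qParam_tendsto_atImInfty one_pos
  have h1 : Tendsto (fun τ : ℍ => deriv (cuspFunction 1 (⇑F)) (Function.Periodic.qParam 1 (τ : ℂ)))
      atImInfty (𝓝 (deriv (cuspFunction 1 (⇑F)) 0)) := hcont.tendsto.comp hq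
  have h2 := hq.mul h1
  rw [zero_mul] at h2
  have hfun : D (⇑F) = fun τ : ℍ => Function.Periodic.qParam 1 (τ : ℂ) *
      deriv (cuspFunction 1 (⇑F)) (Function.Periodic.qParam 1 (τ : ℂ)) :=
    funext fun τ => Ramanujan.D_eq_qParam_mul_deriv_cuspFunction F τ
  rw [IsZeroAtImInfty, ZeroAtFilter, hfun]
  exact h2

/-- `E₂ → 1` at `i∞`. -/
theorem tendsto_E2_atImInfty : Tendsto E2 atImInfty (𝓝 1) := by
  have hq : Tendsto (fun τ : ℍ => Function.Periodic.qParam 1 (τ : ℂ)) atImInfty (𝓝 0) :=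
    UpperHalfPlane.qParam_tendsto_atImInfty one_pos
  have h1 := Ramanujan.analyticAt_cuspFunction_E2.continuousAt.tendsto.comp hq
  rw [Ramanujan.cuspFunction_E2_zero] at h1
  have hfun : (cuspFunction 1 E2 ∘ fun τ : ℍ => Function.Periodic.qParam 1 (τ : ℂ)) = E2 := by
    funext τ
    exact UpperHalfPlane.eq_cuspFunction τ one_ne_zero Ramanujan.E2_periodic
  rw [hfun] at h1
  exact h1

namespace Ramanujan

theorem isBoundedAtImInfty_serreDerivative {k : ℤ} (F : ModularForm 𝒮ℒ k) :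
    IsBoundedAtImInfty (serreDerivative (k : ℂ) (⇑F)) := by
  have h1 : IsBoundedAtImInfty (D (⇑F)) := (isZeroAtImInfty_D F).isBoundedAtImInfty
  have h2 : IsBoundedAtImInfty (⇑F) := ModularFormClass.bdd_at_infty F
  have h3 : IsBoundedAtImInfty E2 := isBoundedAtImInfty_E2
  have h4 : IsBoundedAtImInfty (((k : ℂ) * 12⁻¹) • (E2 * ⇑F)) :=
    BoundedAtFilter.smul _ (BoundedAtFilter.mul h3 h2)
  have h5 : IsBoundedAtImInfty (D (⇑F) + -(((k : ℂ) * 12⁻¹) • (E2 * ⇑F))) :=
    BoundedAtFilter.add h1 (BoundedAtFilter.neg h4)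
  have hfun : serreDerivative (k : ℂ) (⇑F) = D (⇑F) + -(((k : ℂ) * 12⁻¹) • (E2 * ⇑F)) := by
    funext z
    simp only [serreDerivative_apply, Pi.add_apply, Pi.neg_apply, Pi.smul_apply, Pi.mul_apply,
      smul_eq_mul]
    ring
  rw [hfun]
  exact h5

end Ramanujan

/-- The Serre derivative of a level-one form of weight `k` is a level-one form of weight `k+2`. -/
theorem exists_modularForm_serreDerivative {k : ℤ} (F : ModularForm 𝒮ℒ k) :
    ∃ G : ModularForm 𝒮ℒ (k + 2), ∀ z : ℍ, G z = serreDerivative k (⇑F) z := by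
  have hF : MDiff (⇑F) := F.holo'
  have hinv : ∀ γ : SL(2, ℤ),
      serreDerivative (k : ℂ) (⇑F) ∣[k + 2] γ = serreDerivative (k : ℂ) (⇑F) := fun γ =>
    serreDerivative_slash_invariant hF (Ramanujan.slash_levelOne F γ)
  refine ⟨{ toFun := serreDerivative (k : ℂ) (⇑F)
            slash_action_eq' := ?_
            holo' := serreDerivative_mdifferentiable (k : ℂ) hF
            bdd_at_cusps' := ?_ }, fun z => rfl⟩
  · rintro γ' ⟨γ, rfl⟩
    have := hinv γ
    rwa [ModularForm.SL_slash] at this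
  · intro c hc
    rw [OnePoint.isBoundedAt_iff_forall_SL2Z hc]
    intro γ _
    rw [hinv γ]
    exact Ramanujan.isBoundedAtImInfty_serreDerivative F

theorem D_E₄ (z : ℍ) : D (⇑E₄) z = 3⁻¹ * (E2 z * E₄ z - E₆ z) := by
  obtain ⟨G, hG⟩ := exists_modularForm_serreDerivative E₄
  obtain ⟨c, hc⟩ : ∃ c : ℂ, c • E₆ = (ModularForm.mcast (by norm_num) G : ModularForm 𝒮ℒ 6) :=
    (finrank_eq_one_iff_of_nonzero' E₆ (E_ne_zero _ ⟨3, rfl⟩)).mp
      (Module.rank_eq_one_iff_finrank_eq_one.mp levelOne_weight_six_rank_one) _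
  have hpt : ∀ w : ℍ, c * E₆ w = D (⇑E₄) w - 3⁻¹ * (E2 w * E₄ w) := by
    intro w
    have h1 : (c • E₆) w = (ModularForm.mcast (by norm_num) G : ModularForm 𝒮ℒ 6) w := by
      rw [hc]
    rw [ModularForm.mcast_apply, hG w, serreDerivative_apply] at h1
    rw [show (c • E₆) w = c * E₆ w from rfl] at h1
    rw [h1]
    push_cast
    ring
  have hlim1 : Tendsto (fun w : ℍ => c * E₆ w) atImInfty (𝓝 (c * 1)) :=
    tendsto_E₆_atImInfty.const_mul c
  have hlim2 : Tendsto (fun w : ℍ => D (⇑E₄) w - 3⁻¹ * (E2 w * E₄ w)) atImInfty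
      (𝓝 (0 - 3⁻¹ * (1 * 1))) :=
    (isZeroAtImInfty_D E₄).sub ((tendsto_E2_atImInfty.mul tendsto_E₄_atImInfty).const_mul _)
  have hc' : c * 1 = 0 - 3⁻¹ * (1 * 1) :=
    tendsto_nhds_unique (hlim1.congr hpt) hlim2
  have hz := hpt z
  have hc'' : c = -3⁻¹ := by linear_combination hc'
  rw [hc''] at hz
  linear_combination -hz

namespace Ramanujan

/-- The space of level-one forms of weight `8` is one-dimensional. -/
theorem levelOne_weight_eight_rank_one : Module.rank ℂ (ModularForm 𝒮ℒ 8) = 1 := by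
  have := ModularForm.dimension_level_one 8 (by decide)
  simpa [Nat.ModEq] using this

/-- `E₄²` as a level-one form of weight `8`. -/
noncomputable def E₄sq : ModularForm 𝒮ℒ 8 := ModularForm.mcast (by norm_num) (E₄.mul E₄)

theorem E₄sq_apply (w : ℍ) : E₄sq w = E₄ w ^ 2 := by
  rw [E₄sq, ModularForm.mcast_apply, ModularForm.coe_mul, Pi.mul_apply, pow_two]

theorem E₄sq_ne_zero : E₄sq ≠ 0 := by
  rw [E₄sq, Ne, ModularForm.mcast_eq_zero_iff]
  exact ModularForm.mul_ne_zero ⟨1, one_mem_strictPeriods_SL, one_pos⟩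
    (E_ne_zero _ ⟨2, rfl⟩) (E_ne_zero _ ⟨2, rfl⟩)

end Ramanujan

theorem D_E₆ (z : ℍ) : D (⇑E₆) z = 2⁻¹ * (E2 z * E₆ z - E₄ z ^ 2) := by
  obtain ⟨G, hG⟩ := exists_modularForm_serreDerivative E₆
  obtain ⟨c, hc⟩ : ∃ c : ℂ,
      c • Ramanujan.E₄sq = (ModularForm.mcast (by norm_num) G : ModularForm 𝒮ℒ 8) :=
    (finrank_eq_one_iff_of_nonzero' Ramanujan.E₄sq Ramanujan.E₄sq_ne_zero).mp
      (Module.rank_eq_one_iff_finrank_eq_one.mp Ramanujan.levelOne_weight_eight_rank_one) _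
  have hpt : ∀ w : ℍ, c * E₄ w ^ 2 = D (⇑E₆) w - 2⁻¹ * (E2 w * E₆ w) := by
    intro w
    have h1 : (c • Ramanujan.E₄sq) w =
        (ModularForm.mcast (by norm_num) G : ModularForm 𝒮ℒ 8) w := by
      rw [hc]
    rw [ModularForm.mcast_apply, hG w, serreDerivative_apply] at h1
    rw [show (c • Ramanujan.E₄sq) w = c * Ramanujan.E₄sq w from rfl, Ramanujan.E₄sq_apply] at h1
    rw [h1]
    push_cast
    ring
  have hlim1 : Tendsto (fun w : ℍ => c * E₄ w ^ 2) atImInfty (𝓝 (c * 1 ^ 2)) :=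
    (tendsto_E₄_atImInfty.pow 2).const_mul c
  have hlim2 : Tendsto (fun w : ℍ => D (⇑E₆) w - 2⁻¹ * (E2 w * E₆ w)) atImInfty
      (𝓝 (0 - 2⁻¹ * (1 * 1))) :=
    (isZeroAtImInfty_D E₆).sub ((tendsto_E2_atImInfty.mul tendsto_E₆_atImInfty).const_mul _)
  have hc' : c * 1 ^ 2 = 0 - 2⁻¹ * (1 * 1) :=
    tendsto_nhds_unique (hlim1.congr hpt) hlim2
  have hz := hpt z
  have hc'' : c = -2⁻¹ := by linear_combination hc'
  rw [hc''] at hz
  linear_combination -hz

theorem D_discriminant (z : ℍ) : D Δ z = E2 z * Δ z := by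
  have hz : (z : ℂ) ∈ upperHalfPlaneSet := z.im_pos
  have hη : DifferentiableAt ℂ eta (z : ℂ) := differentiableAt_eta_of_mem_upperHalfPlaneSet hz
  have hne : eta (z : ℂ) ≠ 0 := eta_ne_zero hz
  have hlog : deriv eta (z : ℂ) = (Real.pi * Complex.I / 12) * E2 z * eta (z : ℂ) := by
    have h := logDeriv_eta_eq_E2 z
    rw [logDeriv_apply, div_eq_iff hne] at h
    exact h
  have hev : (Δ ∘ ofComplex) =ᶠ[𝓝 (z : ℂ)] fun w => eta w ^ 24 := by
    filter_upwards [isOpen_upperHalfPlaneSet.mem_nhds z.im_pos] with w hw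
    simp only [Function.comp_apply, ofComplex_apply_of_im_pos hw, ModularForm.discriminant]
  have hd : HasDerivAt (Δ ∘ ofComplex) (24 * eta (z : ℂ) ^ 23 * deriv eta (z : ℂ)) (z : ℂ) := by
    have h := (hη.hasDerivAt.pow 24).congr_of_eventuallyEq hev
    simpa using h
  rw [normalizedDerivOfComplex, hd.deriv, hlog, ModularForm.discriminant]
  have h2 : (2 * (Real.pi : ℂ) * Complex.I) ≠ 0 := Complex.two_pi_I_ne_zero
  field_simp
  ring

theorem D_jFun (z : ℍ) : D jFun z = -(E₄ z ^ 2 * E₆ z) / Δ z := by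
  have hΔ : MDiff Δ := CuspForm.discriminant.holo'
  have hE₄ : MDiff (⇑E₄) := E₄.holo'
  have hfun : jFun * Δ = (⇑E₄) ^ 3 := by
    funext w
    simp only [Pi.mul_apply, Pi.pow_apply]
    exact jFun_mul_discriminant w
  have h1 : D (jFun * Δ) z = D jFun z * Δ z + jFun z * D Δ z := by
    rw [normalizedDerivOfComplex_mul jFun Δ mdifferentiable_jFun hΔ]
    rfl
  have h2 : D ((⇑E₄) ^ 3) z = 3 * E₄ z ^ 2 * D (⇑E₄) z := by
    rw [normalizedDerivOfComplex_pow (⇑E₄) 3 hE₄]
    simp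
  rw [hfun, h2, D_E₄, D_discriminant] at h1
  have h3 := jFun_mul_discriminant z
  have hne : Δ z ≠ 0 := discriminant_ne_zero z
  rw [eq_div_iff hne]
  linear_combination -h1 - E2 z * h3

end Fermat.Agent.X0L1
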