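/-
Package L1, file `Lattice`: the period pair `(c, c τ)` and its Eisenstein invariants.
-/
import Fermat.Agent.X0L1.Defs

set_option autoImplicit false

open UpperHalfPlane ModularForm MatrixGroups

namespace Fermat.Agent.X0L1

/-- `c` and `c τ` are `ℝ`-linearly independent. -/
theorem pp_indep (c : ℂ) (hc : c ≠ 0) (τ : ℍ) : LinearIndependent ℝ ![c, c * (τ : ℂ)] := by
  rw [LinearIndependent.pair_iff]
  intro s t h
  have h1 : c * ((s : ℂ) + (t : ℂ) * (τ : ℂ)) = 0 := by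
    simp only [Complex.real_smul] at h
    linear_combination h
  have h2 : (s : ℂ) + (t : ℂ) * (τ : ℂ) = 0 := (mul_eq_zero.mp h1).resolve_left hc
  have him := congrArg Complex.im h2
  have hre := congrArg Complex.re h2
  simp at him hre
  have ht : t = 0 := by
    rcases him with h | h
    · exact h
    · exact absurd h τ.im_ne_zero
  subst ht
  simp at hre
  exact ⟨hre, rfl⟩

/-- The period pair `(c, c τ)`. -/
noncomputable def pp (c : ℂ) (hc : c ≠ 0) (τ : ℍ) : PeriodPair := ⟨c, c * (τ : ℂ), pp_indep c hc τ⟩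

theorem mem_lattice_pp (c : ℂ) (hc : c ≠ 0) (τ : ℍ) (x : ℂ) :
    x ∈ (pp c hc τ).lattice ↔ ∃ m n : ℤ, x = c * ((m : ℂ) + (n : ℂ) * (τ : ℂ)) := by
  rw [PeriodPair.mem_lattice]
  constructor
  · rintro ⟨m, n, h⟩
    exact ⟨m, n, by rw [← h]; simp [pp]; ring⟩
  · rintro ⟨m, n, h⟩
    exact ⟨m, n, by rw [h]; simp [pp]; ring⟩

/-- dictionary between lattice Eisenstein sums and the normalised Eisenstein series -/
theorem G_pp (c : ℂ) (hc : c ≠ 0) (τ : ℍ) (k : ℕ) (hk : 3 ≤ k) :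
    (pp c hc τ).G k = (c ^ k)⁻¹ * (2 * riemannZeta k * E hk τ) := by
  have hE : E hk τ = (1 / 2 : ℂ) * eisensteinSeries (N := 1) 0 k τ := by
    rw [show E hk τ = (1 / 2 : ℂ) • EisensteinSeries.eisensteinSeriesSIF (N := 1) 0 k τ from rfl,
      EisensteinSeries.eisensteinSeriesSIF_apply 0 k τ, smul_eq_mul]
  have hsum := tsum_eisSummand_eq_riemannZeta_mul_eisensteinSeries hk τ
  rw [hE]
  have : (2 * riemannZeta k * ((1 / 2 : ℂ) * eisensteinSeries (N := 1) 0 k τ))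
      = ∑' v : Fin 2 → ℤ, EisensteinSeries.eisSummand k v τ := by
    rw [hsum]; ring
  have key : ∀ p : ℤ × ℤ, (((pp c hc τ).latticeEquivProd.symm p : (pp c hc τ).lattice) : ℂ)
      = c * ((p.1 : ℂ) + (p.2 : ℂ) * (τ : ℂ)) := by
    intro p
    rw [PeriodPair.latticeEquiv_symm_apply]
    simp [pp]
    ring
  have h1 : (pp c hc τ).G k
      = ∑' p : ℤ × ℤ, ((c * ((p.1 : ℂ) + (p.2 : ℂ) * (τ : ℂ))) ^ k)⁻¹ := by
    rw [PeriodPair.G]
    rw [← (pp c hc τ).latticeEquivProd.symm.toEquiv.tsum_eq]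
    refine tsum_congr fun p => ?_
    have := key p
    simp only [LinearEquiv.coe_toEquiv] at this ⊢
    rw [this]
  rw [this, h1, ← tsum_mul_left, ← (finTwoArrowEquiv ℤ).symm.tsum_eq,
    ← (Equiv.prodComm ℤ ℤ).tsum_eq]
  refine tsum_congr fun p => ?_
  simp only [Equiv.prodComm_apply, Prod.swap, finTwoArrowEquiv_symm_apply,
    EisensteinSeries.eisSummand]
  simp only [Matrix.cons_val_zero, Matrix.cons_val_one, zpow_neg, zpow_natCast]
  rw [← mul_inv, ← mul_pow]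
  congr 2
  ring

theorem g₂_pp (c : ℂ) (hc : c ≠ 0) (τ : ℍ) :
    (pp c hc τ).g₂ = (c ^ 4)⁻¹ * (120 * riemannZeta 4 * E₄ τ) := by
  rw [PeriodPair.g₂, G_pp c hc τ 4 (by norm_num)]
  push_cast
  ring

theorem g₃_pp (c : ℂ) (hc : c ≠ 0) (τ : ℍ) :
    (pp c hc τ).g₃ = (c ^ 6)⁻¹ * (280 * riemannZeta 6 * E₆ τ) := by
  rw [PeriodPair.g₃, G_pp c hc τ 6 (by norm_num)]
  push_cast
  ring

end Fermat.Agent.X0L1
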