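/-
Package L1, file `WPOde`: two Weierstrass functions with the same `g₂`, `g₃` agree near `0`
(uniqueness for the differential equation `℘'² = 4℘³ - g₂℘ - g₃` with a double pole at `0`).
-/
import Fermat.Agent.X0L1.Defs

set_option autoImplicit false

namespace Fermat.Agent.X0L1

open PeriodPair Filter Topology

namespace WPOde

/-- near 0 but not 0, z is not in the lattice -/
theorem eventually_notMem (L : PeriodPair) : ∀ᶠ z in 𝓝[≠] (0:ℂ), z ∉ L.lattice := by
  have h := L.compl_lattice_sdiff_singleton_mem_nhds 0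
  filter_upwards [mem_nhdsWithin_of_mem_nhds h, self_mem_nhdsWithin] with z hz hz0
  intro hmem
  exact hz ⟨hmem, hz0⟩

theorem P_eq (L : PeriodPair) (z : ℂ) : ℘[L] z = ℘[L - (0:ℂ)] z + 1 / z ^ 2 := by
  have := L.weierstrassPExcept_add (0 : L.lattice) z
  simpa using this.symm

theorem P'_eq (L : PeriodPair) (z : ℂ) : ℘'[L] z = ℘'[L - (0:ℂ)] z - 2 / z ^ 3 := by
  have := L.derivWeierstrassPExcept_sub (0 : L.lattice) z
  simpa using this.symm

theorem deriv_A (L : PeriodPair) : ∀ᶠ z in 𝓝 (0:ℂ), deriv ℘[L - (0:ℂ)] z = ℘'[L - (0:ℂ)] z := by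
  filter_upwards [L.compl_lattice_sdiff_singleton_mem_nhds 0] with z hz
  exact L.eqOn_deriv_weierstrassPExcept_derivWeierstrassPExcept 0 hz

/-- the differential equation, cleared of denominators -/
theorem ode_cleared (L : PeriodPair) (z : ℂ) (hz0 : z ≠ 0) (hz : z ∉ L.lattice) :
    (z ^ 3 * ℘'[L - (0:ℂ)] z - 2) ^ 2 - 4 * (z ^ 2 * ℘[L - (0:ℂ)] z + 1) ^ 3
      + L.g₂ * (z ^ 6 * ℘[L - (0:ℂ)] z + z ^ 4) + L.g₃ * z ^ 6 = 0 := by
  have h := L.derivWeierstrassP_sq z hz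
  rw [P_eq, P'_eq] at h
  field_simp at h
  linear_combination h

/-- the key relation between `φ = A - A'` and its derivative -/
theorem key (L L' : PeriodPair) (h₂ : L.g₂ = L'.g₂) (h₃ : L.g₃ = L'.g₃) (z : ℂ) (hz0 : z ≠ 0)
    (hz : z ∉ L.lattice) (hz' : z ∉ L'.lattice) :
    z * (℘'[L - (0:ℂ)] z - ℘'[L' - (0:ℂ)] z)
        * (z ^ 3 * ℘'[L - (0:ℂ)] z + z ^ 3 * ℘'[L' - (0:ℂ)] z - 4)
      = (℘[L - (0:ℂ)] z - ℘[L' - (0:ℂ)] z)
        * (4 * ((z ^ 2 * ℘[L - (0:ℂ)] z + 1) ^ 2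
            + (z ^ 2 * ℘[L - (0:ℂ)] z + 1) * (z ^ 2 * ℘[L' - (0:ℂ)] z + 1)
            + (z ^ 2 * ℘[L' - (0:ℂ)] z + 1) ^ 2) - L.g₂ * z ^ 4) := by
  have e1 := ode_cleared L z hz0 hz
  have e2 := ode_cleared L' z hz0 hz'
  rw [← h₂, ← h₃] at e2
  have hz2 : z ^ 2 ≠ 0 := pow_ne_zero 2 hz0
  apply mul_left_cancel₀ hz2
  linear_combination e1 - e2

theorem phi_eventually_zero (L L' : PeriodPair) (h₂ : L.g₂ = L'.g₂) (h₃ : L.g₃ = L'.g₃) :
    ∀ᶠ z in 𝓝 (0:ℂ), ℘[L - (0:ℂ)] z - ℘[L' - (0:ℂ)] z = 0 := by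
  set A := ℘[L - (0:ℂ)] with hA
  set A' := ℘[L' - (0:ℂ)] with hA'
  set B := ℘'[L - (0:ℂ)] with hB
  set B' := ℘'[L' - (0:ℂ)] with hB'
  have anA : AnalyticAt ℂ A 0 := L.analyticAt_weierstrassPExcept 0
  have anA' : AnalyticAt ℂ A' 0 := L'.analyticAt_weierstrassPExcept 0
  have anB : AnalyticAt ℂ B 0 := L.analyticAt_derivWeierstrassPExcept 0
  have anB' : AnalyticAt ℂ B' 0 := L'.analyticAt_derivWeierstrassPExcept 0
  have anφ : AnalyticAt ℂ (fun z => A z - A' z) 0 := anA.sub anA'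
  by_contra hne
  obtain ⟨n, g, ang, hg0, hφ⟩ := (anφ.exists_eventuallyEq_pow_smul_nonzero_iff).mpr hne
  simp only [sub_zero, smul_eq_mul] at hφ
  -- derivative of φ near 0
  have hdφ : ∀ᶠ z in 𝓝 (0:ℂ), B z - B' z = n * z ^ (n - 1) * g z + z ^ n * deriv g z := by
    have hev : ∀ᶠ z in 𝓝 (0:ℂ), ∀ᶠ w in 𝓝 z, A w - A' w = w ^ n * g w := hφ.eventually_nhds
    filter_upwards [hev, deriv_A L, deriv_A L', anA.eventually_analyticAt,
      anA'.eventually_analyticAt, ang.eventually_analyticAt] with z hz hdA hdA' haz haz' hgz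
    have h1 : deriv (fun w => A w - A' w) z = B z - B' z := by
      rw [deriv_fun_sub haz.differentiableAt haz'.differentiableAt, hdA, hdA']
    have h2 : deriv (fun w => A w - A' w) z = deriv (fun w => w ^ n * g w) z :=
      Filter.EventuallyEq.deriv_eq hz
    have h3 : deriv (fun w => w ^ n * g w) z = n * z ^ (n - 1) * g z + z ^ n * deriv g z := by
      rw [deriv_fun_mul (by fun_prop) hgz.differentiableAt]
      simp
    rw [← h1, h2, h3]
  -- the function that must vanish at 0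
  set U : ℂ → ℂ := fun z => z ^ 3 * B z + z ^ 3 * B' z - 4 with hU
  set V : ℂ → ℂ := fun z => 4 * ((z ^ 2 * A z + 1) ^ 2 + (z ^ 2 * A z + 1) * (z ^ 2 * A' z + 1)
            + (z ^ 2 * A' z + 1) ^ 2) - L.g₂ * z ^ 4 with hV
  set H : ℂ → ℂ := fun z => (n * g z + z * deriv g z) * U z - g z * V z with hH
  have hHcont : ContinuousAt H 0 := by
    have c1 : ContinuousAt g 0 := ang.continuousAt
    have c2 : ContinuousAt (deriv g) 0 := ang.deriv.continuousAt
    have c3 : ContinuousAt A 0 := anA.continuousAt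
    have c4 : ContinuousAt A' 0 := anA'.continuousAt
    have c5 : ContinuousAt B 0 := anB.continuousAt
    have c6 : ContinuousAt B' 0 := anB'.continuousAt
    simp only [hH, hU, hV]
    fun_prop
  have hHzero : ∀ᶠ z in 𝓝[≠] (0:ℂ), H z = 0 := by
    filter_upwards [eventually_notMem L, eventually_notMem L', self_mem_nhdsWithin,
      mem_nhdsWithin_of_mem_nhds hφ, mem_nhdsWithin_of_mem_nhds hdφ] with z hz hz' hz0 hφz hdφz
    have hz0' : z ≠ 0 := hz0
    have hk := key L L' h₂ h₃ z hz0' hz hz'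
    simp only [← hA, ← hA', ← hB, ← hB'] at hk
    have hφz' : A z - A' z = z ^ n * g z := hφz
    rw [hdφz, hφz'] at hk
    have hzn : z ^ n ≠ 0 := pow_ne_zero n hz0'
    have hmul : z * ((n : ℂ) * z ^ (n - 1)) = n * z ^ n := by
      rcases Nat.eq_zero_or_pos n with h | h
      · simp [h]
      · have : z ^ n = z ^ (n - 1) * z := by
          rw [← pow_succ, Nat.sub_add_cancel h]
        rw [this]; ring
    apply mul_left_cancel₀ hzn
    simp only [hH, hU, hV, mul_zero]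
    linear_combination hk - (g z * (z ^ 3 * B z + z ^ 3 * B' z - 4)) * hmul
  have hH0 : H 0 = 0 := by
    have t1 : Tendsto H (𝓝[≠] (0:ℂ)) (𝓝 (H 0)) := hHcont.tendsto.mono_left nhdsWithin_le_nhds
    have t2 : Tendsto H (𝓝[≠] (0:ℂ)) (𝓝 0) := by
      apply Tendsto.congr' (f₁ := fun _ => (0:ℂ)) _ tendsto_const_nhds
      filter_upwards [hHzero] with z hz
      exact hz.symm
    exact tendsto_nhds_unique t1 t2
  simp only [hH, hU, hV] at hH0
  have : g 0 * ((n : ℂ) + 3) = 0 := by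
    have h := hH0
    ring_nf at h
    linear_combination (-1/4 : ℂ) * h
  rcases mul_eq_zero.mp this with h | h
  · exact hg0 h
  · have : ((n + 3 : ℕ) : ℂ) = 0 := by push_cast; exact h
    exact absurd (Nat.cast_eq_zero.mp this) (by omega)

end WPOde

/-- If two period pairs have the same `g₂` and `g₃`, their Weierstrass functions agree near `0`. -/
theorem weierstrassP_eventuallyEq (L L' : PeriodPair) (h₂ : L.g₂ = L'.g₂) (h₃ : L.g₃ = L'.g₃) :
    ∀ᶠ z in nhdsWithin (0 : ℂ) {0}ᶜ, ℘[L] z = ℘[L'] z := by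
  filter_upwards [mem_nhdsWithin_of_mem_nhds (WPOde.phi_eventually_zero L L' h₂ h₃)] with z hz
  rw [WPOde.P_eq L, WPOde.P_eq L', sub_eq_zero.mp hz]

end Fermat.Agent.X0L1
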