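/-
Package L1, file `WPPole`: the Weierstrass function determines the lattice (its set of poles).
-/
import Fermat.Agent.X0L1.Defs

set_option autoImplicit false

namespace Fermat.Agent.X0L1

open PeriodPair Filter Topology

namespace WPPole

theorem countable_lattice (L : PeriodPair) : (L.lattice : Set ℂ).Countable := by
  have : Countable L.lattice := Countable.of_equiv _ L.latticeEquivProd.toEquiv.symm
  exact Set.countable_coe_iff.mp this

theorem isPreconnected_compl (L L' : PeriodPair) :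
    IsPreconnected ((L.lattice : Set ℂ) ∪ (L'.lattice : Set ℂ))ᶜ := by
  have hc : ((L.lattice : Set ℂ) ∪ (L'.lattice : Set ℂ)).Countable :=
    (countable_lattice L).union (countable_lattice L')
  exact (hc.isPathConnected_compl_of_one_lt_rank
    (Complex.rank_real_complex ▸ Nat.one_lt_ofNat)).isConnected.isPreconnected

theorem eqOn_compl (L L' : PeriodPair)
    (h : ∀ᶠ z in nhdsWithin (0 : ℂ) {0}ᶜ, ℘[L] z = ℘[L'] z) :
    Set.EqOn ℘[L] ℘[L'] ((L.lattice : Set ℂ) ∪ (L'.lattice : Set ℂ))ᶜ := by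
  have hopen : IsOpen ((L.lattice : Set ℂ) ∪ (L'.lattice : Set ℂ))ᶜ :=
    (L.isClosed_lattice.union L'.isClosed_lattice).isOpen_compl
  have han : AnalyticOnNhd ℂ ℘[L] ((L.lattice : Set ℂ) ∪ (L'.lattice : Set ℂ))ᶜ :=
    L.analyticOnNhd_weierstrassP.mono (Set.compl_subset_compl.mpr Set.subset_union_left)
  have han' : AnalyticOnNhd ℂ ℘[L'] ((L.lattice : Set ℂ) ∪ (L'.lattice : Set ℂ))ᶜ :=
    L'.analyticOnNhd_weierstrassP.mono (Set.compl_subset_compl.mpr Set.subset_union_right)
  -- find a point near 0 where things agree on a neighbourhood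
  have h1 : ∀ᶠ z in 𝓝[≠] (0:ℂ), z ∉ (L.lattice : Set ℂ) ∪ (L'.lattice : Set ℂ) := by
    filter_upwards [mem_nhdsWithin_of_mem_nhds (L.compl_lattice_sdiff_singleton_mem_nhds 0),
      mem_nhdsWithin_of_mem_nhds (L'.compl_lattice_sdiff_singleton_mem_nhds 0),
      self_mem_nhdsWithin] with z hz hz' hz0
    rintro (hm | hm)
    · exact hz ⟨hm, hz0⟩
    · exact hz' ⟨hm, hz0⟩
  -- `h` as an open set statement
  rw [eventually_nhdsWithin_iff] at h
  obtain ⟨z₁, hz₁, hz₁'⟩ := ((h1.and (h.eventually_nhds.filter_mono nhdsWithin_le_nhds)).and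
    self_mem_nhdsWithin).exists
  obtain ⟨hz₁U, hz₁ev⟩ := hz₁
  have hz₁0 : z₁ ≠ 0 := hz₁'
  have hev : ℘[L] =ᶠ[𝓝 z₁] ℘[L'] := by
    filter_upwards [hz₁ev, isOpen_compl_singleton.mem_nhds hz₁0] with w hw hw0
    exact hw hw0
  exact han.eqOn_of_preconnected_of_eventuallyEq han' (isPreconnected_compl L L') hz₁U hev

theorem lattice_le (L L' : PeriodPair)
    (h : ∀ᶠ z in nhdsWithin (0 : ℂ) {0}ᶜ, ℘[L] z = ℘[L'] z) : L.lattice ≤ L'.lattice := by
  intro l hl
  by_contra hl'
  have heq := eqOn_compl L L' h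
  have hev : ℘[L] =ᶠ[𝓝[≠] l] ℘[L'] := by
    filter_upwards [mem_nhdsWithin_of_mem_nhds (L.compl_lattice_sdiff_singleton_mem_nhds l),
      mem_nhdsWithin_of_mem_nhds (L'.isClosed_lattice.isOpen_compl.mem_nhds hl'),
      self_mem_nhdsWithin] with z hz hz' hzl
    apply heq
    rintro (hm | hm)
    · exact hz ⟨hm, hzl⟩
    · exact hz' hm
  have h1 := meromorphicOrderAt_congr hev
  rw [L.order_weierstrassP l hl] at h1
  have h2 : (0 : WithTop ℤ) ≤ meromorphicOrderAt ℘[L'] l :=
    (L'.analyticOnNhd_weierstrassP l hl').meromorphicOrderAt_nonneg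
  rw [← h1] at h2
  exact absurd h2 (by decide)

end WPPole

/-- If the Weierstrass functions of two period pairs agree near `0`, the lattices coincide. -/
theorem lattice_eq_of_weierstrassP_eventuallyEq (L L' : PeriodPair)
    (h : ∀ᶠ z in nhdsWithin (0 : ℂ) {0}ᶜ, ℘[L] z = ℘[L'] z) : L.lattice = L'.lattice :=
  le_antisymm (WPPole.lattice_le L L' h) (WPPole.lattice_le L' L (h.mono fun _ hz => hz.symm))

end Fermat.Agent.X0L1
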