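/-
Package L1, file `WP`: a lattice is determined by its invariants `g₂`, `g₃`.
-/
import Fermat.Agent.X0L1.WPOde
import Fermat.Agent.X0L1.WPPole

set_option autoImplicit false

namespace Fermat.Agent.X0L1

/-- A lattice is determined by `g₂` and `g₃`. -/
theorem lattice_eq_of_g_eq (L L' : PeriodPair) (h₂ : L.g₂ = L'.g₂) (h₃ : L.g₃ = L'.g₃) :
    L.lattice = L'.lattice :=
  lattice_eq_of_weierstrassP_eventuallyEq L L' (weierstrassP_eventuallyEq L L' h₂ h₃)

end Fermat.Agent.X0L1
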