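/-
Package L1, file `Injective` (L1.2): `j` separates `SL(2,ℤ)`-orbits.
-/
import Fermat.Agent.X0L1.Basic
import Fermat.Agent.X0L1.Lattice
import Fermat.Agent.X0L1.WP

set_option autoImplicit false

open UpperHalfPlane ModularForm MatrixGroups

namespace Fermat.Agent.X0L1

namespace Injective

theorem cube_sub_sq_ne_zero (z : ℍ) : E₄ z ^ 3 - E₆ z ^ 2 ≠ 0 := by
  have h := ModularForm.discriminant_ne_zero z
  rw [ModularForm.discriminant_eq_E₄_cube_sub_E₆_sq] at h
  intro h0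
  apply h
  rw [h0]
  simp

theorem rel_of_jFun_eq (z z' : ℍ) (h : jFun z = jFun z') :
    E₄ z ^ 3 * E₆ z' ^ 2 = E₄ z' ^ 3 * E₆ z ^ 2 := by
  have h1 := cube_sub_sq_ne_zero z
  have h2 := cube_sub_sq_ne_zero z'
  rw [jFun_def, jFun_def, ModularForm.discriminant_eq_E₄_cube_sub_E₆_sq,
    ModularForm.discriminant_eq_E₄_cube_sub_E₆_sq] at h
  field_simp at h
  linear_combination -h

end Injective

/-- same `j` ⟹ the pairs `(E₄, E₆)` differ by a weighted scaling -/
theorem exists_scale_of_jFun_eq (z z' : ℍ) (h : jFun z = jFun z') :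
    ∃ μ : ℂ, μ ≠ 0 ∧ E₄ z = μ ^ 4 * E₄ z' ∧ E₆ z = μ ^ 6 * E₆ z' := by
  have hrel := Injective.rel_of_jFun_eq z z' h
  have h1 := Injective.cube_sub_sq_ne_zero z
  have h2 := Injective.cube_sub_sq_ne_zero z'
  generalize E₄ z = u at *
  generalize E₆ z = v at *
  generalize E₄ z' = u' at *
  generalize E₆ z' = v' at *
  by_cases hu : u = 0
  · subst hu
    have hv : v ≠ 0 := by intro hv; apply h1; rw [hv]; ring
    have hu' : u' = 0 := by
      have : u' ^ 3 * v ^ 2 = 0 := by rw [← hrel]; ring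
      have := (mul_eq_zero.mp this).resolve_right (pow_ne_zero 2 hv)
      exact pow_eq_zero_iff (by norm_num) |>.mp this
    subst hu'
    have hv' : v' ≠ 0 := by intro hv'; apply h2; rw [hv']; ring
    obtain ⟨μ, hμ⟩ := IsAlgClosed.exists_pow_nat_eq (v / v') (n := 6) (by norm_num)
    refine ⟨μ, ?_, by ring, ?_⟩
    · rintro rfl
      have : v / v' = 0 := by rw [← hμ]; ring
      exact (div_ne_zero hv hv') this
    · rw [hμ]; field_simp
  by_cases hv : v = 0
  · subst hv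
    have hv' : v' = 0 := by
      have : u ^ 3 * v' ^ 2 = 0 := by rw [hrel]; ring
      have := (mul_eq_zero.mp this).resolve_left (pow_ne_zero 3 hu)
      exact pow_eq_zero_iff (by norm_num) |>.mp this
    subst hv'
    have hu' : u' ≠ 0 := by intro hu'; apply h2; rw [hu']; ring
    obtain ⟨μ, hμ⟩ := IsAlgClosed.exists_pow_nat_eq (u / u') (n := 4) (by norm_num)
    refine ⟨μ, ?_, ?_, by ring⟩
    · rintro rfl
      have : u / u' = 0 := by rw [← hμ]; ring
      exact (div_ne_zero hu hu') this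
    · rw [hμ]; field_simp
  · have hu' : u' ≠ 0 := by
      rintro rfl
      have : u ^ 3 * v' ^ 2 = 0 := by rw [hrel]; ring
      have := (mul_eq_zero.mp this).resolve_left (pow_ne_zero 3 hu)
      have hv' : v' = 0 := pow_eq_zero_iff (by norm_num) |>.mp this
      apply h2; rw [hv']; ring
    have hv' : v' ≠ 0 := by
      rintro rfl
      have : u' ^ 3 * v ^ 2 = 0 := by rw [← hrel]; ring
      have := (mul_eq_zero.mp this).resolve_right (pow_ne_zero 2 hv)
      exact hu' (pow_eq_zero_iff (by norm_num) |>.mp this)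
    obtain ⟨μ, hμ⟩ := IsAlgClosed.exists_pow_nat_eq ((v / v') / (u / u')) (n := 2) (by norm_num)
    have hst : (u / u') ^ 3 = (v / v') ^ 2 := by
      field_simp
      linear_combination hrel
    have hs : u / u' ≠ 0 := div_ne_zero hu hu'
    have ht : v / v' ≠ 0 := div_ne_zero hv hv'
    have h4 : μ ^ 4 = u / u' := by
      have : μ ^ 4 = (μ ^ 2) ^ 2 := by ring
      rw [this, hμ, div_pow, ← hst]
      field_simp
    have h6 : μ ^ 6 = v / v' := by
      have : μ ^ 6 = (μ ^ 2) ^ 3 := by ring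
      rw [this, hμ, div_pow, hst]
      field_simp
    refine ⟨μ, ?_, ?_, ?_⟩
    · rintro rfl
      have : (v / v') / (u / u') = 0 := by rw [← hμ]; ring
      exact (div_ne_zero ht hs) this
    · rw [h4]; field_simp
    · rw [h6]; field_simp

namespace Injective

/-- `1` and `z` are independent over the integers (even the reals). -/
theorem int_indep (z : ℍ) (a b a' b' : ℤ)
    (h : (a : ℂ) + (b : ℂ) * (z : ℂ) = (a' : ℂ) + (b' : ℂ) * (z : ℂ)) : a = a' ∧ b = b' := by
  have him := congrArg Complex.im h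
  have hre := congrArg Complex.re h
  simp at him hre
  have hb : b = b' := by
    rcases him with h | h
    · exact_mod_cast h
    · exact absurd h z.im_ne_zero
  subst hb
  simp at hre
  exact ⟨by exact_mod_cast hre, rfl⟩

end Injective

/-- homothetic lattices `ℤ + ℤ z = c (ℤ + ℤ z')` come from `SL(2,ℤ)`-equivalent points -/
theorem exists_smul_eq_of_lattice_eq (z z' : ℍ) (c : ℂ) (hc : c ≠ 0)
    (h : (pp 1 one_ne_zero z).lattice = (pp c hc z').lattice) :
    ∃ γ : SL(2, ℤ), γ • z = z' := by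
  -- `1` and `z` in terms of `c, c z'`
  obtain ⟨p, q, hpq⟩ : ∃ p q : ℤ, (1 : ℂ) = c * ((p : ℂ) + (q : ℂ) * (z' : ℂ)) := by
    rw [← mem_lattice_pp c hc z', ← h, mem_lattice_pp]
    exact ⟨1, 0, by simp⟩
  obtain ⟨r, s, hrs⟩ : ∃ r s : ℤ, (z : ℂ) = c * ((r : ℂ) + (s : ℂ) * (z' : ℂ)) := by
    rw [← mem_lattice_pp c hc z', ← h, mem_lattice_pp]
    exact ⟨0, 1, by simp⟩
  -- `c` and `c z'` in terms of `1, z`
  obtain ⟨p', q', hpq'⟩ : ∃ p' q' : ℤ, c = 1 * ((p' : ℂ) + (q' : ℂ) * (z : ℂ)) := by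
    rw [← mem_lattice_pp 1 one_ne_zero z, h, mem_lattice_pp]
    exact ⟨1, 0, by simp⟩
  obtain ⟨r', s', hrs'⟩ : ∃ r' s' : ℤ, c * (z' : ℂ) = 1 * ((r' : ℂ) + (s' : ℂ) * (z : ℂ)) := by
    rw [← mem_lattice_pp 1 one_ne_zero z, h, mem_lattice_pp]
    exact ⟨0, 1, by simp⟩
  rw [one_mul] at hpq' hrs'
  -- the two integer matrices are inverse to each other
  have e1 : ((p * p' + q * r' : ℤ) : ℂ) + ((p * q' + q * s' : ℤ) : ℂ) * (z : ℂ)
      = ((1 : ℤ) : ℂ) + ((0 : ℤ) : ℂ) * (z : ℂ) := by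
    push_cast
    linear_combination -hpq - (p : ℂ) * hpq' - (q : ℂ) * hrs'
  have e2 : ((r * p' + s * r' : ℤ) : ℂ) + ((r * q' + s * s' : ℤ) : ℂ) * (z : ℂ)
      = ((0 : ℤ) : ℂ) + ((1 : ℤ) : ℂ) * (z : ℂ) := by
    push_cast
    linear_combination -hrs - (r : ℂ) * hpq' - (s : ℂ) * hrs'
  obtain ⟨e11, e12⟩ := Injective.int_indep z _ _ _ _ e1
  obtain ⟨e21, e22⟩ := Injective.int_indep z _ _ _ _ e2
  have hdet : (s * p - r * q) * (p' * s' - q' * r') = 1 := by
    linear_combination (r * q' + s * s') * e11 + e22 - (r * p' + s * r') * e12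
  -- positivity of the determinant
  have hw : (p : ℂ) + (q : ℂ) * (z' : ℂ) ≠ 0 := by
    intro h0
    rw [h0, mul_zero] at hpq
    exact one_ne_zero hpq
  have hzw : (z : ℂ) * ((p : ℂ) + (q : ℂ) * (z' : ℂ)) = (r : ℂ) + (s : ℂ) * (z' : ℂ) := by
    linear_combination ((p : ℂ) + (q : ℂ) * (z' : ℂ)) * hrs - ((r : ℂ) + (s : ℂ) * (z' : ℂ)) * hpq
  have hre := congrArg Complex.re hzw
  have him := congrArg Complex.im hzw
  simp only [Complex.mul_re, Complex.mul_im, Complex.add_re, Complex.add_im, Complex.intCast_re,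
    Complex.intCast_im, zero_mul, sub_zero, add_zero, zero_add, UpperHalfPlane.coe_re,
    UpperHalfPlane.coe_im] at hre him
  have hkey : z.im * (((p : ℝ) + q * z'.re) ^ 2 + ((q : ℝ) * z'.im) ^ 2)
      = ((s * p - r * q : ℤ) : ℝ) * z'.im := by
    push_cast
    linear_combination ((p : ℝ) + q * z'.re) * him - ((q : ℝ) * z'.im) * hre
  have hnorm : 0 < ((p : ℝ) + q * z'.re) ^ 2 + ((q : ℝ) * z'.im) ^ 2 := by
    by_contra hneg
    have h0 : ((p : ℝ) + q * z'.re) ^ 2 + ((q : ℝ) * z'.im) ^ 2 = 0 :=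
      le_antisymm (not_lt.mp hneg) (by positivity)
    have ha : (p : ℝ) + q * z'.re = 0 := by nlinarith [sq_nonneg ((p : ℝ) + q * z'.re), sq_nonneg ((q : ℝ) * z'.im)]
    have hb : (q : ℝ) * z'.im = 0 := by nlinarith [sq_nonneg ((p : ℝ) + q * z'.re), sq_nonneg ((q : ℝ) * z'.im)]
    apply hw
    apply Complex.ext
    · simp [ha]
    · simp [hb]
  have hpos : 0 < s * p - r * q := by
    have h1 : 0 < ((s * p - r * q : ℤ) : ℝ) * z'.im := by
      rw [← hkey]
      exact mul_pos z.im_pos hnorm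
    have h2 : 0 < ((s * p - r * q : ℤ) : ℝ) := by
      by_contra hneg
      have := mul_nonpos_of_nonpos_of_nonneg (not_lt.mp hneg) z'.im_pos.le
      linarith
    exact_mod_cast h2
  have hdet1 : s * p - r * q = 1 := Int.eq_one_of_mul_eq_one_right hpos.le hdet
  let g : SL(2, ℤ) := ⟨!![s, r; q, p], by rw [Matrix.det_fin_two_of]; linarith⟩
  have hg : g • z' = z := by
    apply UpperHalfPlane.ext
    rw [UpperHalfPlane.coe_specialLinearGroup_apply]
    have hden : ((q : ℂ) * (z' : ℂ) + (p : ℂ)) ≠ 0 := by rwa [add_comm]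
    simp only [g, Matrix.of_apply, Matrix.cons_val',
      Matrix.cons_val_zero, Matrix.cons_val_one, Matrix.cons_val_fin_one, algebraMap_int_eq,
      eq_intCast, Complex.ofReal_intCast]
    rw [div_eq_iff hden]
    linear_combination -hzw
  exact ⟨g⁻¹, by rw [← hg, inv_smul_smul]⟩

/-- `j` separates `SL(2,ℤ)`-orbits. -/
theorem exists_smul_eq_of_jFun_eq {z z' : ℍ} (h : jFun z = jFun z') :
    ∃ γ : SL(2, ℤ), γ • z = z' := by
  obtain ⟨μ, hμ, h4, h6⟩ := exists_scale_of_jFun_eq z z' h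
  have hc : μ⁻¹ ≠ 0 := inv_ne_zero hμ
  apply exists_smul_eq_of_lattice_eq z z' μ⁻¹ hc
  apply lattice_eq_of_g_eq
  · rw [g₂_pp, g₂_pp, h4]
    field_simp
  · rw [g₃_pp, g₃_pp, h6]
    field_simp

end Fermat.Agent.X0L1
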