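/-
Package L1, file `Order` (L1.4): values at the elliptic points and the order of `j - j(z₀)`.
-/
import Fermat.Agent.X0L1.Ramanujan

set_option autoImplicit false

open UpperHalfPlane ModularForm MatrixGroups

namespace Fermat.Agent.X0L1

local notation "Δ" => ModularForm.discriminant

namespace Order

/-- `S` fixes `I`. -/
theorem S_smul_I : ModularGroup.S • UpperHalfPlane.I = UpperHalfPlane.I :=
  ModularGroup.stabilizer_I.mpr
    (Finset.mem_insert_of_mem (Finset.mem_insert_of_mem (Finset.mem_insert_self _ _)))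

/-- `S * T` fixes `ρ`. -/
theorem ST_smul_ρ : (ModularGroup.S * ModularGroup.T) • UpperHalfPlane.ρ = UpperHalfPlane.ρ :=
  ModularGroup.stabilizer_ρ.mpr
    (Finset.mem_insert_of_mem (Finset.mem_insert_of_mem (Finset.mem_insert_self _ _)))

/-- The matrix of `S * T`. -/
theorem coe_ST : ((ModularGroup.S * ModularGroup.T : SL(2, ℤ)) : Matrix (Fin 2) (Fin 2) ℤ)
    = !![0, -1; 1, 1] := by
  rw [Matrix.SpecialLinearGroup.coe_mul, ModularGroup.coe_S, ModularGroup.coe_T,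
    Matrix.mul_fin_two]
  norm_num

/-- The automorphy factor of `S * T` at `ρ` is `ρ + 1`. -/
theorem denom_ST_ρ :
    denom (ModularGroup.S * ModularGroup.T : SL(2, ℤ)) (UpperHalfPlane.ρ : ℂ)
      = (UpperHalfPlane.ρ : ℂ) + 1 := by
  rw [ModularGroup.denom_apply, coe_ST]
  simp only [Matrix.of_apply, Matrix.cons_val', Matrix.cons_val_zero, Matrix.cons_val_one,
    Matrix.cons_val_fin_one, Int.cast_one, one_mul]

/-- Unfolding of the normalised derivative `D = (2πi)⁻¹ d/dz`. -/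
theorem D_apply (F : ℍ → ℂ) (z : ℍ) :
    Derivative.normalizedDerivOfComplex F z
      = (2 * (Real.pi : ℂ) * Complex.I)⁻¹ * deriv (F ∘ ofComplex) (z : ℂ) := rfl

end Order

theorem E₆_I : E₆ UpperHalfPlane.I = 0 := by
  -- `S` fixes `I` with automorphy factor `I`, and `I ^ 6 = -1`
  have h := E₆_smul ModularGroup.S UpperHalfPlane.I
  rw [Order.S_smul_I, ModularGroup.denom_S, UpperHalfPlane.coe_I] at h
  have h6 : (Complex.I) ^ 6 = -1 := by
    calc (Complex.I) ^ 6 = (Complex.I ^ 2) ^ 3 := by ring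
      _ = -1 := by rw [Complex.I_sq]; norm_num
  rw [h6] at h
  linear_combination (1 / 2 : ℂ) * h

theorem E₄_ρ : E₄ UpperHalfPlane.ρ = 0 := by
  -- `S * T` fixes `ρ` with automorphy factor `ρ + 1`, and `(ρ + 1) ^ 4 = -ρ - 1 ≠ 1`
  have h := E₄_smul (ModularGroup.S * ModularGroup.T) UpperHalfPlane.ρ
  rw [Order.ST_smul_ρ, Order.denom_ST_ρ] at h
  have hρ := UpperHalfPlane.ρ_sq
  have h4 : ((UpperHalfPlane.ρ : ℂ) + 1) ^ 4 = -(UpperHalfPlane.ρ : ℂ) - 1 := by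
    linear_combination ((UpperHalfPlane.ρ : ℂ) ^ 2 + 3 * (UpperHalfPlane.ρ : ℂ) + 2) * hρ
  rw [h4] at h
  -- now `(ρ + 2) * E₄ ρ = 0`, and `(ρ - 1) * (ρ + 2) = -3`
  linear_combination (-(1 : ℂ) / 3) * ((UpperHalfPlane.ρ : ℂ) - 1) * h
    + (1 / 3 : ℂ) * E₄ UpperHalfPlane.ρ * hρ

theorem jFun_I : jFun UpperHalfPlane.I = 1728 := by
  exact (jFun_eq_1728_iff _).mpr E₆_I

theorem jFun_ρ : jFun UpperHalfPlane.ρ = 0 := by
  exact (jFun_eq_zero_iff _).mpr E₄_ρ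

/-- zeros of `E₄` are simple -/
theorem deriv_E₄_ne_zero {z : ℍ} (h : E₄ z = 0) : deriv (⇑E₄ ∘ ofComplex) (z : ℂ) ≠ 0 := by
  intro hd
  have hD := D_E₄ z
  rw [Order.D_apply, hd, h] at hD
  have h6 : E₆ z = 0 := by linear_combination (3 : ℂ) * hD
  rcases E₄_ne_zero_or_E₆_ne_zero z with h4 | h6'
  · exact h4 h
  · exact h6' h6

/-- zeros of `E₆` are simple -/
theorem deriv_E₆_ne_zero {z : ℍ} (h : E₆ z = 0) : deriv (⇑E₆ ∘ ofComplex) (z : ℂ) ≠ 0 := by
  intro hd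
  have hD := D_E₆ z
  rw [Order.D_apply, hd, h] at hD
  have h4 : E₄ z ^ 2 = 0 := by linear_combination (2 : ℂ) * hD
  rcases E₄_ne_zero_or_E₆_ne_zero z with h4' | h6
  · exact h4' ((pow_eq_zero_iff (two_ne_zero)).mp h4)
  · exact h6 h

/-- `j` is unramified away from the two elliptic orbits -/
theorem deriv_jFun_ne_zero {z : ℍ} (h0 : jFun z ≠ 0) (h1 : jFun z ≠ 1728) :
    deriv (jFun ∘ ofComplex) (z : ℂ) ≠ 0 := by
  intro hd
  have hD := D_jFun z
  rw [Order.D_apply, hd, mul_zero] at hD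
  have hΔ : Δ z ≠ 0 := ModularForm.discriminant_ne_zero z
  have h4 : E₄ z ≠ 0 := fun h => h0 ((jFun_eq_zero_iff z).mpr h)
  have h6 : E₆ z ≠ 0 := fun h => h1 ((jFun_eq_1728_iff z).mpr h)
  have hne : -(E₄ z ^ 2 * E₆ z) / Δ z ≠ 0 :=
    div_ne_zero (neg_ne_zero.mpr (mul_ne_zero (pow_ne_zero 2 h4) h6)) hΔ
  exact hne hD.symm

end Fermat.Agent.X0L1
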