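/-
Package L1, file `Stabilizer` (L1.5): stabilizers in `SL(2,ℤ)`.
The stabilizers of `I` and `ρ` are Mathlib's `ModularGroup.stabilizer_I`, `ModularGroup.stabilizer_ρ`.
-/
import Fermat.Agent.X0L1.Basic

set_option autoImplicit false

open UpperHalfPlane ModularForm MatrixGroups

namespace Fermat.Agent.X0L1

namespace Stabilizer

/-- If `w ^ 4 = 1` and `w ^ 6 = 1` then `w ^ 2 = 1`. -/
theorem sq_eq_one_of_pow (w : ℂ) (h4 : w ^ 4 = 1) (h6 : w ^ 6 = 1) : w ^ 2 = 1 := by
  have h : w ^ 6 = w ^ 4 * w ^ 2 := by ring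
  rw [h6, h4, one_mul] at h
  exact h.symm

/-- The coordinate formula for the action of `SL(2,ℤ)` on the upper half plane. -/
theorem coe_smul_eq (γ : SL(2, ℤ)) (z : ℍ) :
    ((γ • z : ℍ) : ℂ) =
      (((γ 0 0 : ℤ) : ℂ) * z + ((γ 0 1 : ℤ) : ℂ)) /
        (((γ 1 0 : ℤ) : ℂ) * z + ((γ 1 1 : ℤ) : ℂ)) := by
  rw [UpperHalfPlane.coe_specialLinearGroup_apply]
  simp only [algebraMap_int_eq, Int.coe_castRingHom, Complex.ofReal_intCast]

/-- An element of `SL(2,ℤ)` with lower row `(0, 1)` fixing a point is the identity. -/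
theorem eq_one_of_row (γ : SL(2, ℤ)) (z : ℍ) (hγ : γ • z = z)
    (hc : γ 1 0 = 0) (hd : γ 1 1 = 1) : γ = 1 := by
  have hdet := γ.det_coe
  rw [Matrix.det_fin_two, hc, hd] at hdet
  have ha : γ 0 0 = 1 := by linarith
  have hz := coe_smul_eq γ z
  rw [hγ, hc, hd, ha, Int.cast_one, Int.cast_zero, zero_mul, zero_add, one_mul, div_one] at hz
  have hb' : ((γ 0 1 : ℤ) : ℂ) = 0 := by linear_combination -hz
  have hb : γ 0 1 = 0 := Int.cast_eq_zero.mp hb'
  ext i j
  fin_cases i <;> fin_cases j <;> simp [ha, hb, hc, hd]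

/-- An element of `SL(2,ℤ)` with lower row `(0, -1)` fixing a point is `-1`. -/
theorem eq_neg_one_of_row (γ : SL(2, ℤ)) (z : ℍ) (hγ : γ • z = z)
    (hc : γ 1 0 = 0) (hd : γ 1 1 = -1) : γ = -1 := by
  have hdet := γ.det_coe
  rw [Matrix.det_fin_two, hc, hd] at hdet
  have ha : γ 0 0 = -1 := by linarith
  have hz := coe_smul_eq γ z
  rw [hγ, hc, hd, ha, Int.cast_neg, Int.cast_one, Int.cast_zero, zero_mul, zero_add, div_neg,
    div_one] at hz
  have hb' : ((γ 0 1 : ℤ) : ℂ) = 0 := by linear_combination hz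
  have hb : γ 0 1 = 0 := Int.cast_eq_zero.mp hb'
  ext i j
  fin_cases i <;> fin_cases j <;> simp [ha, hb, hc, hd]

end Stabilizer

/-- Away from the two elliptic orbits the stabilizer is `{±1}`. -/
theorem eq_one_or_neg_one_of_smul_eq (z : ℍ) (h0 : jFun z ≠ 0) (h1 : jFun z ≠ 1728)
    (γ : SL(2, ℤ)) (hγ : γ • z = z) : γ = 1 ∨ γ = -1 := by
  have h4 : E₄ z ≠ 0 := fun h => h0 ((jFun_eq_zero_iff z).mpr h)
  have h6 : E₆ z ≠ 0 := fun h => h1 ((jFun_eq_1728_iff z).mpr h)
  -- the automorphy factor `denom γ z` is a 4th and a 6th root of unity, hence `±1`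
  have e4 := E₄_smul γ z
  have e6 := E₆_smul γ z
  rw [hγ] at e4 e6
  have hl4 : denom γ z ^ 4 = 1 := by
    have h : (denom γ z ^ 4 - 1) * E₄ z = 0 := by linear_combination -e4
    rcases mul_eq_zero.mp h with h | h
    · linear_combination h
    · exact absurd h h4
  have hl6 : denom γ z ^ 6 = 1 := by
    have h : (denom γ z ^ 6 - 1) * E₆ z = 0 := by linear_combination -e6
    rcases mul_eq_zero.mp h with h | h
    · linear_combination h
    · exact absurd h h6
  have hl2 : denom γ z ^ 2 = 1 := Stabilizer.sq_eq_one_of_pow _ hl4 hl6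
  rw [ModularGroup.denom_apply] at hl2
  have hcd : ((γ 1 0 : ℤ) : ℂ) * z + ((γ 1 1 : ℤ) : ℂ) = 1 ∨
      ((γ 1 0 : ℤ) : ℂ) * z + ((γ 1 1 : ℤ) : ℂ) = -1 := sq_eq_one_iff.mp hl2
  -- the lower left entry vanishes, by taking imaginary parts
  have him : ((γ 1 0 : ℤ) : ℝ) * z.im = 0 := by
    have him' : (((γ 1 0 : ℤ) : ℂ) * z + ((γ 1 1 : ℤ) : ℂ)).im = 0 := by
      rcases hcd with h | h
      · rw [h, Complex.one_im]
      · rw [h, Complex.neg_im, Complex.one_im, neg_zero]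
    rw [Complex.add_im, Complex.mul_im, Complex.intCast_im, Complex.intCast_im,
      Complex.intCast_re, zero_mul, add_zero, add_zero, UpperHalfPlane.coe_im] at him'
    exact him'
  have hc : γ 1 0 = 0 := by
    rcases mul_eq_zero.mp him with h | h
    · exact Int.cast_eq_zero.mp h
    · exact absurd h z.im_ne_zero
  rw [hc, Int.cast_zero, zero_mul, zero_add] at hcd
  rcases hcd with h | h
  · left
    have hd : γ 1 1 = 1 := Int.cast_eq_one.mp h
    exact Stabilizer.eq_one_of_row γ z hγ hc hd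
  · right
    have hd : γ 1 1 = -1 := by
      have h' : ((γ 1 1 : ℤ) : ℂ) = ((-1 : ℤ) : ℂ) := by
        rw [h, Int.cast_neg, Int.cast_one]
      exact Int.cast_injective h'
    exact Stabilizer.eq_neg_one_of_row γ z hγ hc hd

end Fermat.Agent.X0L1
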