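/-
Package L1, file `Structure` (L1.6): level-one forms of weight `12 m` are `Δ^m · P(j)`.
-/
import Fermat.Agent.X0L1.Basic

set_option autoImplicit false

open UpperHalfPlane ModularForm MatrixGroups

namespace Fermat.Agent.X0L1

local notation "Δ" => ModularForm.discriminant

namespace Structure

/-- `j · Δ = E₄ ^ 3` (proved directly from the definition, so that this file does not depend
on the proofs of `Basic`). -/
theorem jFun_mul_disc (z : ℍ) : jFun z * Δ z = E₄ z ^ 3 := by
  rw [jFun_def, div_mul_cancel₀ _ (ModularForm.discriminant_ne_zero z)]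

/-- `E₄ ^ (3 n)` as a level-one modular form of weight `k = 12 n`. -/
noncomputable def E4pow (n : ℕ) (k : ℤ) (hk : k = 12 * (n : ℤ)) : ModularForm 𝒮ℒ k :=
  ModularForm.mcast (by rw [hk]; push_cast; ring) (E₄.pow (3 * n))

theorem E4pow_apply (n : ℕ) (k : ℤ) (hk : k = 12 * (n : ℤ)) (z : ℍ) :
    E4pow n k hk z = E₄ z ^ (3 * n) := by
  simp only [E4pow, ModularForm.mcast_apply, ModularForm.coe_pow, Pi.pow_apply]

/-- The constant term of the `q`-expansion of `E₄ ^ (3 n)` is `1`. -/
theorem E4pow_coeff_zero (n : ℕ) (k : ℤ) (hk : k = 12 * (n : ℤ)) :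
    (qExpansion 1 (E4pow n k hk)).coeff 0 = 1 := by
  have h0 : (qExpansion 1 E₄).coeff 0 = 1 := EisensteinSeries.E_qExpansion_coeff_zero _ ⟨2, rfl⟩
  simp only [E4pow, ModularForm.coe_mcast,
    ModularForm.qExpansion_pow one_pos one_mem_strictPeriods_SL]
  rw [PowerSeries.coeff_zero_eq_constantCoeff, map_pow,
    ← PowerSeries.coeff_zero_eq_constantCoeff, h0, one_pow]

/-- Auxiliary statement for a general weight `k = 12 m` (this avoids dependent casts):
induction on `m`, subtracting the constant term times `E₄ ^ (3 m)` and dividing the resulting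
cusp form by `Δ`. -/
theorem exists_poly_aux (m : ℕ) : ∀ (k : ℤ) (_ : k = 12 * (m : ℤ)) (f : ModularForm 𝒮ℒ k),
    ∃ P : Polynomial ℂ, P.natDegree ≤ m ∧ ∀ z : ℍ, f z = Δ z ^ m * P.eval (jFun z) := by
  induction m with
  | zero =>
    intro k hk f
    obtain rfl : k = 0 := by simpa using hk
    obtain ⟨c, hc⟩ := ModularFormClass.levelOne_weight_zero_const f
    refine ⟨Polynomial.C c, by simp, fun z => ?_⟩
    simp [hc]
  | succ m ih =>
    intro k hk f
    obtain ⟨c, hc⟩ := ModularForm.sub_smul_isCuspForm f (E4pow (m + 1) k hk)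
      (E4pow_coeff_zero (m + 1) k hk)
    have hcz : ∀ z : ℍ, c z = f z - (qExpansion 1 f).coeff 0 * E₄ z ^ (3 * (m + 1)) := by
      intro z
      have := DFunLike.congr_fun hc z
      rw [CuspForm.toModularFormₗ_apply] at this
      rw [this, sub_apply, smul_apply, E4pow_apply, smul_eq_mul]
    obtain ⟨Q, hQdeg, hQ⟩ := ih (k - 12) (by rw [hk]; push_cast; ring)
      (CuspForm.discriminantEquiv c)
    refine ⟨Polynomial.C ((qExpansion 1 f).coeff 0) * Polynomial.X ^ (m + 1) + Q, ?_, fun z => ?_⟩
    · refine (Polynomial.natDegree_add_le _ _).trans (max_le ?_ (hQdeg.trans (Nat.le_succ m)))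
      exact Polynomial.natDegree_C_mul_X_pow_le _ _
    · have h1 := ModularForm.discriminant_mul_discriminantEquiv_apply c z
      rw [hQ z, hcz z] at h1
      have h3 := jFun_mul_disc z
      simp only [Polynomial.eval_add, Polynomial.eval_mul, Polynomial.eval_C, Polynomial.eval_pow,
        Polynomial.eval_X]
      have h4 : E₄ z ^ (3 * (m + 1)) = jFun z ^ (m + 1) * Δ z ^ (m + 1) := by
        rw [pow_mul, ← h3, mul_pow]
      rw [h4] at h1
      linear_combination -h1

end Structure

/-- Every level-one modular form of weight `12 m` is `Δ^m · P(j)` with `deg P ≤ m`. -/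
theorem exists_poly_of_levelOne (m : ℕ) (f : ModularForm 𝒮ℒ (12 * (m : ℤ))) :
    ∃ P : Polynomial ℂ, P.natDegree ≤ m ∧ ∀ z : ℍ, f z = Δ z ^ m * P.eval (jFun z) := by
  exact Structure.exists_poly_aux m _ rfl f

end Fermat.Agent.X0L1
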