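/-
Package L1 (level-one facts about `j`): umbrella file, imports everything in the package.
-/
import Fermat.Agent.X0L1.Basic
import Fermat.Agent.X0L1.Structure
import Fermat.Agent.X0L1.Ramanujan
import Fermat.Agent.X0L1.Order
import Fermat.Agent.X0L1.Stabilizer
import Fermat.Agent.X0L1.Injective
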